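import Fermat.Agent.Deform.Cyclotomic
import Fermat.Agent.TwoAdic.LocalFacts
import Fermat.Agent.Frobenius.Exists
import Fermat.Agent.DefRing.NormalForm

/-!
# Deformation problems of the 2-adic lifting step

The deformation problems of the 2-adic lifting step.

`LiftData.cond E Q`: determinant cyclotomic; at `2` ordinary Steinberg of exact sign; at the
distinguished prime `ℓ₀ ∣ D` unipotent inertia (either sign); at the other primes of `D` and at the
auxiliary primes of `A` new of exact sign; free at `Q`; unramified elsewhere.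
-/

set_option autoImplicit false

open GaloisRep Fermat.Agent.DefRing Fermat.Agent.Deform

namespace Fermat.Agent.TwoAdic

section Conditions

variable {A : Type} [CommRing A] [IsLocalRing A]

/-- New at `q` with sign `s`. -/
def IsSignedNewAt (ρ : GaloisRepAdic A) (q : ℕ) (s : ℤ) : Prop :=
  ∀ P : ValuationSubring (AlgebraicClosure ℚ), P.LiesOverPrime q →
    ∀ φ : GQ, P.IsFrobeniusAt φ q →
      ρ.trace φ = (s : A) * ((q : A) + 1) ∧
      ∀ τ ∈ P.inertiaSubgroupIn ℚ, ρ.trace τ = 2 ∧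
        (ρ.ρ φ - ((s : A) * (q : A)) • 1) * (ρ.ρ τ - 1) = 0 ∧
        (ρ.ρ τ - 1) * (ρ.ρ φ - (s : A) • 1) = 0

open Classical in
/-- The unramified character at `2` with Frobenius value `s`, read on a square root of `5`. -/
noncomputable def signAtTwo (s : ℤ) (σ : GQ) : ℤ :=
  if ∀ r : AlgebraicClosure ℚ, r ^ 2 = 5 → σ r = r then 1 else s

/-- Ordinary of Steinberg type at `2`, with sign `s`. -/
def IsSignedOrdinaryTwo (ρ : GaloisRepAdic A) (s : ℤ) : Prop :=
  ∀ P : ValuationSubring (AlgebraicClosure ℚ), P.LiesOverPrime 2 →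
    ∀ σ ∈ P.decompositionSubgroup ℚ, ∀ σ' ∈ P.decompositionSubgroup ℚ,
      (ρ.ρ σ' - (LinearMap.det (ρ.ρ σ') * (signAtTwo s σ' : A)) • 1) *
        (ρ.ρ σ - (signAtTwo s σ : A) • 1) = 0

end Conditions

/-- The data of a lifting problem. -/
structure LiftData where
  /-- the absolute discriminant of the imaginary quadratic field -/
  D : ℕ
  /-- the prime whose sign is left free -/
  ℓ₀ : ℕ
  /-- the auxiliary new primes -/
  aux : Finset ℕ
  /-- the signs -/
  sgn : ℕ → ℤ
  squarefree : Squarefree D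
  mod_eight : D % 8 = 3
  prime_ℓ₀ : ℓ₀.Prime
  dvd_ℓ₀ : ℓ₀ ∣ D
  aux_spec : ∀ q ∈ aux, q.Prime ∧ q ≠ 2 ∧ ¬ q ∣ D
  sgn_spec : ∀ q, sgn q = 1 ∨ sgn q = -1

namespace LiftData

/-- Change the auxiliary set. -/
def withAux (E : LiftData) (s : Finset ℕ) (h : ∀ q ∈ s, q.Prime ∧ q ≠ 2 ∧ ¬ q ∣ E.D) : LiftData :=
  { E with aux := s, aux_spec := h }

/-- Remove an auxiliary prime. -/
def erase (E : LiftData) (q : ℕ) : LiftData :=
  E.withAux (E.aux.erase q) fun x hx => E.aux_spec x (Finset.mem_of_mem_erase hx)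

/-- The condition, with free ramification at `Q`. -/
def cond (E : LiftData) (Q : Finset ℕ) (𝒪 : Type) [CommRing 𝒪] :
    ∀ ⦃A : Type⦄ [CommRing A] [IsLocalRing A] [Algebra 𝒪 A], GaloisRepAdic A → Prop :=
  fun _A _ _ _ ρ => ρ.DetIsCyclotomic 2 ∧ IsSignedOrdinaryTwo ρ (E.sgn 2) ∧
    ρ.IsUnipotentOnInertiaAt E.ℓ₀ ∧
    (∀ q : ℕ, q.Prime → ((q ∣ E.D ∧ q ≠ E.ℓ₀) ∨ q ∈ E.aux) → IsSignedNewAt ρ q (E.sgn q)) ∧
    ∀ q : ℕ, q.Prime → q ≠ 2 → ¬ q ∣ E.D → q ∉ E.aux → q ∉ Q → ρ.IsUnramifiedAt q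

end LiftData

/-- The residual representation: dihedral of order six, everywhere unramified over `ℚ(√-D)`. -/
structure IsDihedralResidual {k : Type} [Field k] (D : ℕ) (r : MRep k) : Prop where
  card_range : (Set.range r).ncard = 6
  det_one : ∀ σ, (r σ).det = 1
  fixing : ∀ σ : GQ, (∀ x : AlgebraicClosure ℚ, x ^ 2 = -(D : AlgebraicClosure ℚ) → σ x = x) ↔
    ((r σ).trace ≠ 0 ∨ r σ = 1)
  unramified : ∀ q : ℕ, q.Prime → ¬ q ∣ D → ∀ P : ValuationSubring (AlgebraicClosure ℚ),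
    P.LiesOverPrime q → ∀ τ ∈ P.inertiaSubgroupIn ℚ, r τ = 1
  tame : ∀ ℓ : ℕ, ℓ.Prime → ℓ ∣ D → ∀ P : ValuationSubring (AlgebraicClosure ℚ),
    P.LiesOverPrime ℓ → ∀ τ ∈ P.inertiaSubgroupIn ℚ, r τ * r τ = 1

variable {𝒪 : Type} [CommRing 𝒪]

/-- The value of `(φ - c) (τ - 1)` in a basis. -/
theorem evRep_sub_mul_sub {A : Type} [CommRing A] [IsLocalRing A] [Algebra 𝒪 A]
    (ρ : GaloisRepAdic A) (φ τ : GQ) (c : 𝒪) :
    evRep (matrixRep ρ (repBasis ρ))
        ((MonoidAlgebra.of 𝒪 GQ φ - algebraMap 𝒪 _ c) * (MonoidAlgebra.of 𝒪 GQ τ - 1)) =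
      LinearMap.toMatrixAlgEquiv (repBasis ρ)
        ((ρ.ρ φ - algebraMap 𝒪 A c • 1) * (ρ.ρ τ - 1)) ∧
    evRep (matrixRep ρ (repBasis ρ))
        ((MonoidAlgebra.of 𝒪 GQ τ - 1) * (MonoidAlgebra.of 𝒪 GQ φ - algebraMap 𝒪 _ c)) =
      LinearMap.toMatrixAlgEquiv (repBasis ρ)
        ((ρ.ρ τ - 1) * (ρ.ρ φ - algebraMap 𝒪 A c • 1)) := by
  constructor <;>
  · simp only [map_mul, map_sub, map_one, evRep_of, AlgHom.commutes, map_smul]
    rw [IsScalarTower.algebraMap_apply 𝒪 A (Matrix (Fin 2) (Fin 2) A),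
      Algebra.algebraMap_eq_smul_one (algebraMap 𝒪 A c)]
    rfl

/-- Prescribed traces. -/
noncomputable def traceRelFamily (S : Set (GQ × 𝒪)) : EquationFamily 𝒪 S where
  val x A _ _ N := Matrix.scalar (Fin 2) ((N x.1.1).trace - algebraMap 𝒪 A x.1.2)
  natural x A B _ _ _ _ φ N := by
    rw [Matrix.scalar_apply, Matrix.scalar_apply, Matrix.diagonal_map (map_zero φ), map_sub,
      AlgHom.commutes]
    simp [Matrix.trace, Fin.sum_univ_two]
  equivariant x A _ _ N N' g h := by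
    rw [(conj_det g (h x.1.1)).2]
    exact ((Matrix.scalar_commute _ (fun r => Commute.all _ _) _).eq).symm

theorem traceRelFamily_iff (S : Set (GQ × 𝒪)) {A : Type} [CommRing A] [IsLocalRing A]
    [Algebra 𝒪 A] (ρ : GaloisRepAdic A) :
    (traceRelFamily S).condition ρ ↔ ∀ σ o, (σ, o) ∈ S → ρ.trace σ = algebraMap 𝒪 A o := by
  have key : ∀ σ, ρ.trace σ = (matrixRep ρ (repBasis ρ) σ).trace := fun σ =>
    LinearMap.trace_eq_matrix_trace A (repBasis ρ) _
  constructor
  · intro h σ o hσ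
    have h1 := congrFun (congrFun (h ⟨(σ, o), hσ⟩) 0) 0
    simp only [traceRelFamily, Matrix.scalar_apply, Matrix.diagonal_apply_eq, Matrix.zero_apply,
      sub_eq_zero] at h1
    rw [key]
    exact h1
  · rintro h ⟨⟨σ, o⟩, hσ⟩
    show Matrix.scalar (Fin 2) _ = 0
    rw [← key, h σ o hσ, sub_self, map_zero]

variable [IsLocalRing 𝒪]

/-- The residual point satisfies the condition when the auxiliary primes have
transposition Frobenius. -/
theorem cond_residual [Finite (IsLocalRing.ResidueField 𝒪)]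
    [CharP (IsLocalRing.ResidueField 𝒪) 2] (E : LiftData) (Q : Finset ℕ) (D : NormalData 𝒪)
    (hr : IsDihedralResidual E.D D.rbar)
    (hA : ∀ q ∈ E.aux, ∀ P : ValuationSubring (AlgebraicClosure ℚ), P.LiesOverPrime q →
      ∀ φ : GQ, P.IsFrobeniusAt φ q → (D.rbar φ).trace = 0 ∧ D.rbar φ ≠ 1)
    (hc : IsCont D.rbar) : E.cond Q 𝒪 (toAdic D.rbar hc) := by
  let k := IsLocalRing.ResidueField 𝒪
  have hcast : ∀ s : ℤ, (s = 1 ∨ s = -1) → (s : k) = 1 := by
    rintro s (rfl | rfl)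
    · exact Int.cast_one
    · simp [CharTwo.neg_eq]
  have hodd : ∀ n : ℕ, ¬ 2 ∣ n → (n : k) = 1 := fun n hn => by
    obtain ⟨m, rfl⟩ : ∃ m, n = 2 * m + 1 := ⟨n / 2, by omega⟩
    rw [Nat.cast_add, Nat.cast_mul, Nat.cast_ofNat, Nat.cast_one,
      (CharTwo.two_eq_zero : (2 : k) = 0), zero_mul, zero_add]
  have htr : ∀ σ, (toAdic D.rbar hc).trace σ = (D.rbar σ).trace := fun σ => by
    show LinearMap.trace k (Fin 2 → k) (Matrix.toLin' (D.rbar σ)) = _
    exact Matrix.trace_toLin'_eq _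
  have hdet : ∀ σ, LinearMap.det ((toAdic D.rbar hc).ρ σ) = 1 := fun σ => by
    exact (LinearMap.det_toLin' (D.rbar σ)).trans (hr.det_one σ)
  have hρ : ∀ σ, (toAdic D.rbar hc).ρ σ = Matrix.toLinAlgEquiv' (D.rbar σ) := fun σ => rfl
  have hlift : ∀ g h : GQ, (D.rbar g - 1) * (D.rbar h - 1) = 0 →
      ((toAdic D.rbar hc).ρ g - 1) * ((toAdic D.rbar hc).ρ h - 1) = 0 := fun g h e => by
    have := congrArg Matrix.toLinAlgEquiv' e
    rw [map_mul, map_sub, map_sub, map_one, map_zero] at this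
    exact this
  have hDodd : ¬ 2 ∣ E.D := by have := E.mod_eight; omega
  obtain ⟨x, hx⟩ := IsAlgClosed.exists_pow_nat_eq (-(E.D : AlgebraicClosure ℚ)) (n := 2) (by omega)
  have hmoves : ∀ σ : GQ, σ x ≠ x → (D.rbar σ).trace = 0 := fun σ hσ => by
    by_contra h
    exact hσ ((hr.fixing σ).mpr (Or.inl h) x hx)
  have hneg : ∀ σ : GQ, σ x = x ∨ σ x = -x := fun σ => eq_or_eq_neg_of_sq_eq_sq _ _ (by
    rw [← map_pow, hx, map_neg, map_natCast])
  refine ⟨⟨?_, fun n σ a ha => ?_⟩, fun P hP σ hσ σ' hσ' => ?_, fun P hP τ hτ => ?_,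
    fun q hq hqN P hP φ hφ => ?_,
    fun q hq _ hqD _ _ P hP τ hτ => by rw [hρ, hr.unramified q hq hqD P hP τ hτ, map_one]; rfl⟩
  · rw [Nat.cast_ofNat, CharTwo.two_eq_zero]
    exact zero_mem _
  · rcases Nat.eq_zero_or_pos n with rfl | hn
    · simp
    · rw [hdet]
      have h1 : (-1 : AlgebraicClosure ℚ) ^ a = -1 := by
        rw [← ha (-1) (Even.neg_one_pow (Nat.even_pow.mpr ⟨even_two, hn.ne'⟩)), map_neg, map_one]
      have hao : ¬ 2 ∣ a := fun h2 => by
        rw [(even_iff_two_dvd.mpr h2).neg_one_pow] at h1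
        norm_num at h1
      rw [hodd a hao, sub_self]
      exact zero_mem _
  · obtain ⟨φ, hφ⟩ := Frobenius.exists_isFrobeniusAt_qbar Nat.prime_two hP
    obtain ⟨L, hL, hL1⟩ := hc.finite_level
    have hcyc : ∀ g ∈ P.decompositionSubgroup ℚ, ∃ n : ℕ, D.rbar g = D.rbar φ ^ n := by
      intro g hg
      obtain ⟨n, τ, hτ, hfix⟩ := TameInertia.exists_eq_frobenius_pow_mul Nat.prime_two hP hφ hg L
      refine ⟨n, ?_⟩
      have h1 := hL1 _ fun y hy => (IntermediateField.mem_fixingSubgroup_iff L _).mp hfix y hy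
      have h2 := congrArg (D.rbar (φ ^ n * τ) * ·) h1
      simp only [← map_mul, mul_inv_cancel_left, mul_one] at h2
      rw [h2, map_mul, map_pow, hr.unramified 2 Nat.prime_two hDodd P hP τ hτ, mul_one]
    have ht : (D.rbar φ).trace = 0 :=
      hmoves φ (frobenius_two_moves E.mod_eight hP hφ hx)
    have hsq := mul_self_eq_one ht (hr.det_one φ)
    have hpow : ∀ n : ℕ, D.rbar φ ^ n = 1 ∨ D.rbar φ ^ n = D.rbar φ := fun n => by
      induction n with
      | zero => exact Or.inl (pow_zero _)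
      | succ n ih =>
        rcases ih with h | h <;> rw [pow_succ, h]
        · exact Or.inr (one_mul _)
        · exact Or.inl hsq
    have hs : ∀ g, (signAtTwo (E.sgn 2) g : k) = 1 := fun g => by
      unfold signAtTwo
      split_ifs
      · exact Int.cast_one
      · exact hcast _ (E.sgn_spec 2)
    rw [hdet, hs, hs, one_mul, one_smul]
    refine hlift _ _ ?_
    obtain ⟨m, hm⟩ := hcyc σ hσ
    obtain ⟨m', hm'⟩ := hcyc σ' hσ'
    rcases hpow m with h | h <;> rcases hpow m' with h' | h' <;> rw [hm, hm', h, h']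
    · simp
    · simp
    · simp
    · exact sub_one_mul_sub_one ht (hr.det_one φ) ht (hr.det_one φ) rfl
  · show LinearMap.charpoly (Matrix.toLin' (D.rbar τ)) = _
    rw [← LinearMap.charpoly_toMatrix _ (Pi.basisFun k (Fin 2)),
      show LinearMap.toMatrix (Pi.basisFun k (Fin 2)) (Pi.basisFun k (Fin 2))
      (Matrix.toLin' (D.rbar τ)) = D.rbar τ from LinearMap.toMatrix'_toLin' _,
      Matrix.charpoly_fin_two, hr.det_one, trace_eq_zero_of_mul_self
        (hr.tame E.ℓ₀ E.prime_ℓ₀ E.dvd_ℓ₀ P hP τ hτ) (hr.det_one τ)]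
    have h2 : (2 : Polynomial k) = 0 := by
      rw [← map_ofNat Polynomial.C, CharTwo.two_eq_zero, map_zero]
    simp only [map_zero, map_one, zero_mul, sub_zero]
    linear_combination (Polynomial.X : Polynomial k) * h2
  · have hq2 : ¬ 2 ∣ q := by
      intro h2
      obtain rfl := (Nat.prime_dvd_prime_iff_eq Nat.prime_two hq).mp h2
      rcases hqN with h | h
      · exact hDodd h.1
      · exact (E.aux_spec 2 h).2.1 rfl
    have hcoef : (E.sgn q : k) * ((q : k) + 1) = 0 := by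
      rw [hodd q hq2, one_add_one_eq_two, CharTwo.two_eq_zero, mul_zero]
    have hfr : (D.rbar φ).trace = 0 ∧ ∀ τ ∈ P.inertiaSubgroupIn ℚ, (D.rbar τ).trace = 0 ∧
        D.rbar φ * D.rbar τ = D.rbar τ * D.rbar φ := by
      by_cases hqD : q ∣ E.D
      · have htame := fun τ hτ => trace_eq_zero_of_mul_self (hr.tame q hq hqD P hP τ hτ)
          (hr.det_one τ)
        obtain ⟨τ₁, hτ₁, hτ₁x⟩ := exists_inertia_moves hq hqD E.squarefree hP hx
        have hne₁ : D.rbar τ₁ ≠ 1 := fun h => hτ₁x ((hr.fixing τ₁).mpr (Or.inr h) x hx)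
        have hone : ∀ τ ∈ P.inertiaSubgroupIn ℚ, D.rbar τ = 1 ∨ D.rbar τ = D.rbar τ₁ := by
          intro τ hτ
          by_cases hτx : τ x = x
          · rcases (hr.fixing τ).mp (fun y hy => by
              rcases eq_or_eq_neg_of_sq_eq_sq y x (hy.trans hx.symm) with rfl | rfl
              · exact hτx
              · rw [map_neg, hτx]) with h | h
            · exact absurd (htame τ hτ) h
            · exact Or.inl h
          · right
            have hττ₁ : τ * τ₁ ∈ P.inertiaSubgroupIn ℚ := mul_mem hτ hτ₁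
            have hfix : (τ * τ₁) x = x := by
              rw [AlgEquiv.mul_apply, (hneg τ₁).resolve_left hτ₁x, map_neg,
                (hneg τ).resolve_left hτx, neg_neg]
            rcases (hr.fixing _).mp (fun y hy => by
              rcases eq_or_eq_neg_of_sq_eq_sq y x (hy.trans hx.symm) with rfl | rfl
              · exact hfix
              · rw [map_neg, hfix]) with h | h
            · exact absurd (htame _ hττ₁) h
            · rw [map_mul] at h
              calc D.rbar τ = D.rbar τ * (D.rbar τ₁ * D.rbar τ₁) := by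
                    rw [hr.tame q hq hqD P hP τ₁ hτ₁, mul_one]
                _ = D.rbar τ₁ := by rw [← mul_assoc, h, one_mul]
        have hcomm : D.rbar φ * D.rbar τ₁ = D.rbar τ₁ * D.rbar φ := by
          have hconj : φ * τ₁ * φ⁻¹ ∈ P.inertiaSubgroupIn ℚ :=
            TameInertia.inertia_normal_in_decomposition hφ.mem_decompositionSubgroup hτ₁
          rcases hone _ hconj with h | h
          · exfalso
            apply hne₁
            have := congrArg (fun M => D.rbar φ⁻¹ * M * D.rbar φ) h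
            simpa [← map_mul, mul_assoc] using this
          · have := congrArg (· * D.rbar φ) h
            simpa [← map_mul, mul_assoc] using this
        refine ⟨trace_eq_zero_of_commute (htame τ₁ hτ₁) (hr.det_one τ₁) hne₁ hcomm,
          fun τ hτ => ⟨htame τ hτ, ?_⟩⟩
        rcases hone τ hτ with h | h <;> rw [h]
        · rw [mul_one, one_mul]
        · exact hcomm
      · have hqA : q ∈ E.aux := hqN.resolve_left fun h => hqD h.1
        refine ⟨(hA q hqA P hP φ hφ).1, fun τ hτ => ?_⟩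
        rw [hr.unramified q hq hqD P hP τ hτ]
        exact ⟨by rw [Matrix.trace_one, Fintype.card_fin, Nat.cast_ofNat]; exact CharTwo.two_eq_zero,
          by rw [mul_one, one_mul]⟩
    refine ⟨by rw [htr, hfr.1, hcoef], fun τ hτ => ⟨?_, ?_, ?_⟩⟩
    · rw [htr, (hfr.2 τ hτ).1]
      exact ((CharTwo.two_eq_zero : (2 : k) = 0)).symm
    · rw [hcast _ (E.sgn_spec q), hodd q hq2, one_mul, one_smul]
      exact hlift _ _
        (sub_one_mul_sub_one hfr.1 (hr.det_one φ) (hfr.2 τ hτ).1 (hr.det_one τ) (hfr.2 τ hτ).2)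
    · rw [hcast _ (E.sgn_spec q), one_smul]
      exact hlift _ _ (sub_one_mul_sub_one (hfr.2 τ hτ).1 (hr.det_one τ) hfr.1 (hr.det_one φ)
        (hfr.2 τ hτ).2.symm)

end Fermat.Agent.TwoAdic
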