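import Fermat.Agent.TwoAdic.Blueprint.Local
import Fermat.Agent.TwoAdic.Selmer.Pattern
import Fermat.Agent.TwoAdic.Selmer.Scalar
import Fermat.Agent.Deform.Finite
import Fermat.Agent.Deform.TangentBound
import Fermat.Agent.GalCoh.GlobalLevels
import Fermat.Agent.GalCoh.CFTInputs
import Mathlib.NumberTheory.LegendreSymbol.JacobiSymbol

/-!
# Order-three primes with prescribed patterns

The primes of the Taylor–Wiles sets of the 2-adic lifting: residual Frobenius of order three and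
prescribed quadratic symbols, found by Chebotarev.
-/

set_option autoImplicit false

open GaloisRep Fermat.Agent.DefRing Fermat.Agent.Deform Fermat.Agent.GalCoh
open IsLocalRing (ResidueField)

namespace Fermat.Agent.TwoAdic

variable {𝒪 : Type} [CommRing 𝒪] [IsLocalRing 𝒪] [Finite (ResidueField 𝒪)]
  [CharP (ResidueField 𝒪) 2] (D : NormalData 𝒪)

/-- A prime `q ≡ 1 (mod 4)` with residual Frobenius of order three and prescribed symbols. -/
def HasPattern (q : ℕ) (T : Finset ℕ) (χ : ℕ → ℤ) : Prop :=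
  q.Prime ∧ q % 4 = 1 ∧ (∀ ℓ ∈ T, jacobiSym (ℓ : ℤ) q = χ ℓ) ∧
    ∀ P : ValuationSubring (AlgebraicClosure ℚ), P.LiesOverPrime q →
      ∀ φ : GQ, P.IsFrobeniusAt φ q → (D.rbar φ).trace = 1

omit [Finite (ResidueField 𝒪)] in
/-- Chebotarev: order-three primes `≡ 1 (mod 2ⁿ)` with prescribed Legendre symbols on
the primes of `D` and on any further odd primes. -/
theorem exists_hasPattern {E : LiftData} (hr : IsDihedralResidual E.D D.rbar) (hc : IsCont D.rbar)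
    (T : Finset ℕ) (hT : ∀ ℓ ∈ T, ℓ.Prime) (hD : ∀ ℓ, ℓ.Prime → ℓ ∣ E.D → ℓ ∈ T) (χ : ℕ → ℤ)
    (hχ : ∀ ℓ ∈ T, χ ℓ = 1 ∨ χ ℓ = -1) (hprod : ∏ ℓ ∈ E.D.primeFactors, χ ℓ = 1) (n : ℕ)
    (h2 : 3 ≤ n → 2 ∈ T → χ 2 = 1) (X : Finset ℕ) :
    ∃ q, q ∉ X ∧ q % 2 ^ n = 1 % 2 ^ n ∧ HasPattern D q T χ := by
  obtain ⟨q, hX, hn, hq, h4, hJ, htr⟩ := Selmer.exists_pattern hr hc E.squarefree E.mod_eight T
    hT hD χ hχ hprod n h2 X
  exact ⟨q, hX, hn, hq, h4, hJ, htr⟩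

/-- The pattern of the Taylor–Wiles prime attached to `i`. -/
def twPattern (E : LiftData) (i ℓ : ℕ) : ℤ := if ℓ = i ∨ ℓ = E.ℓ₀ then -1 else 1

end Fermat.Agent.TwoAdic
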